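/-
PROJECT D (S48), part B, block B3, brick C (cusps of `X₁(M)`), producer of the seam `CuspFam1`,
file `Count` (helper16): THE GALOIS COUNT, pure field theory (Mathlib only).

`k ⊆ F ⊆ E ⊆ Ω` fields (`E`, `F` intermediate fields of `Ω / k`), `B = k(j) ⊆ E` with `j ∈ F` and
`E / B` finite Galois.  Then the `B`-embeddings of `F` into `E` form a COMPLETE family:

* they are pairwise distinct as ring homomorphisms `F →+* Ω`;
* there are `[F : k(j)]` of them (`AlgHom.card_of_splits`);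
* they are the identity on the constants and on `j`;
* each of them is the restriction of an element of `Gal(E / B)` (`AlgHom.liftNormal`).
-/
import Mathlib

set_option autoImplicit false

noncomputable section

namespace Fermat.Agent.S48.B.Red.Cusp1.FromFull.Count

open IntermediateField

variable {k Ω : Type} [Field k] [Field Ω] [Algebra k Ω]
variable (E F : IntermediateField k Ω) (hFE : F ≤ E) (B : IntermediateField k ↥E)
variable (j : ↥F) (hB : B = adjoin k {inclusion hFE j})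

/-- the image of `F` in `E`, as an intermediate field of `E / k` -/
def imgK : IntermediateField k ↥E := (inclusion hFE).fieldRange

theorem mem_imgK {x : ↥E} : x ∈ imgK E F hFE ↔ ∃ y : ↥F, inclusion hFE y = x := Iff.rfl

include hB in
theorem base_le_imgK : B ≤ imgK E F hFE := by
  rw [hB, adjoin_le_iff, Set.singleton_subset_iff]
  exact ⟨j, rfl⟩

/-- the image of `F` in `E`, as an intermediate field of `E / B` -/
def img : IntermediateField ↥B ↥E := extendScalars (base_le_imgK E F hFE B j hB)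

theorem mem_img {x : ↥E} : x ∈ img E F hFE B j hB ↔ ∃ y : ↥F, inclusion hFE y = x := Iff.rfl

/-- `F ≃ img` -/
def toImg : ↥F ≃+* ↥(img E F hFE B j hB) :=
  RingEquiv.ofBijective
    (((inclusion hFE : ↥F →ₐ[k] ↥E) : ↥F →+* ↥E).codRestrict (img E F hFE B j hB)
      fun y => ⟨y, rfl⟩)
    ⟨fun _ _ h => (inclusion hFE).injective (congrArg Subtype.val h),
      fun ⟨_, y, hy⟩ => ⟨y, Subtype.ext hy⟩⟩

theorem coe_toImg (y : ↥F) :
    ((toImg E F hFE B j hB y : ↥(img E F hFE B j hB)) : ↥E) = inclusion hFE y := rfl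

include hB in
theorem inclusion_mem_base {b : ↥F} (hb : b ∈ k⟮j⟯) : inclusion hFE b ∈ B := by
  have h1 : (k⟮j⟯).map (inclusion hFE) = B := by
    rw [adjoin_map, Set.image_singleton, hB]
  rw [← h1]
  exact ⟨b, hb, rfl⟩

/-- `k(j) ⊆ F` is identified with `B ⊆ E` -/
def toBase : ↥k⟮j⟯ ≃+* ↥B :=
  RingEquiv.ofBijective
    ((((inclusion hFE : ↥F →ₐ[k] ↥E) : ↥F →+* ↥E).comp (k⟮j⟯).val.toRingHom).codRestrict B
      fun b => inclusion_mem_base E F hFE B j hB b.2)
    ⟨fun x y h => Subtype.ext ((inclusion hFE).injective (congrArg Subtype.val h)), by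
      rintro ⟨x, hx⟩
      have h1 : (k⟮j⟯).map (inclusion hFE) = B := by
        rw [adjoin_map, Set.image_singleton, hB]
      rw [← h1] at hx
      obtain ⟨b, hb, hbx⟩ := hx
      exact ⟨⟨b, hb⟩, Subtype.ext hbx⟩⟩

theorem coe_toBase (b : ↥k⟮j⟯) :
    ((toBase E F hFE B j hB b : ↥B) : ↥E) = inclusion hFE (b : ↥F) := rfl

/-- **the degree of `F` over `k(j)` is the degree of its image over `B`** -/
theorem finrank_eq :
    Module.finrank ↥k⟮j⟯ ↥F = Module.finrank ↥B ↥(img E F hFE B j hB) := by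
  refine Algebra.finrank_eq_of_equiv_equiv (toBase E F hFE B j hB) (toImg E F hFE B j hB) ?_
  ext b
  rfl

/-- the embedding of `F` into `Ω` attached to a `B`-embedding of the image of `F` into `E` -/
def lam (φ : ↥(img E F hFE B j hB) →ₐ[↥B] ↥E) : ↥F →+* Ω :=
  (E.val.toRingHom.comp φ.toRingHom).comp (toImg E F hFE B j hB).toRingHom

theorem lam_apply (φ : ↥(img E F hFE B j hB) →ₐ[↥B] ↥E) (x : ↥F) :
    lam E F hFE B j hB φ x = ((φ (toImg E F hFE B j hB x) : ↥E) : Ω) := rfl

theorem lam_injective : Function.Injective (lam E F hFE B j hB) := by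
  intro φ ψ h
  ext x
  obtain ⟨y, rfl⟩ := (toImg E F hFE B j hB).surjective x
  have := DFunLike.congr_fun h y
  rw [lam_apply, lam_apply] at this
  exact congrArg Subtype.val (Subtype.ext this)

theorem toImg_algebraMap (b : ↥B) (y : ↥F) (hy : inclusion hFE y = (b : ↥E)) :
    toImg E F hFE B j hB y = algebraMap ↥B ↥(img E F hFE B j hB) b :=
  Subtype.ext hy

theorem lam_of_mem_base (φ : ↥(img E F hFE B j hB) →ₐ[↥B] ↥E) (y : ↥F)
    (hy : inclusion hFE y ∈ B) : lam E F hFE B j hB φ y = (y : Ω) := by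
  rw [lam_apply, toImg_algebraMap E F hFE B j hB ⟨_, hy⟩ y rfl, φ.commutes]
  rfl

theorem lam_algebraMap (φ : ↥(img E F hFE B j hB) →ₐ[↥B] ↥E) (c : k) :
    lam E F hFE B j hB φ (algebraMap k ↥F c) = algebraMap k Ω c := by
  rw [lam_of_mem_base]
  · rfl
  · have : inclusion hFE (algebraMap k ↥F c) = algebraMap k ↥E c := (inclusion hFE).commutes c
    rw [this]
    exact B.algebraMap_mem c

theorem lam_gen (φ : ↥(img E F hFE B j hB) →ₐ[↥B] ↥E) :
    lam E F hFE B j hB φ j = (j : Ω) := by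
  rw [lam_of_mem_base]
  rw [hB]
  exact mem_adjoin_simple_self k _

variable [IsGalois ↥B ↥E] [FiniteDimensional ↥B ↥E]

/-- **the count** -/
theorem card_eq :
    Fintype.card (↥(img E F hFE B j hB) →ₐ[↥B] ↥E) = Module.finrank ↥k⟮j⟯ ↥F := by
  rw [finrank_eq E F hFE B j hB]
  refine AlgHom.card_of_splits ↥B ↥(img E F hFE B j hB) ↥E fun x => ?_
  rw [IntermediateField.minpoly_eq]
  exact Normal.splits inferInstance _

omit [FiniteDimensional ↥B ↥E] in
/-- **every embedding is the restriction of an automorphism** -/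
theorem exists_algEquiv (φ : ↥(img E F hFE B j hB) →ₐ[↥B] ↥E) :
    ∃ σ : ↥E ≃ₐ[↥B] ↥E, ∀ x : ↥F,
      lam E F hFE B j hB φ x = ((σ (inclusion hFE x) : ↥E) : Ω) := by
  let σ₀ : ↥E →ₐ[↥B] ↥E := φ.liftNormal ↥E
  have hbij : Function.Bijective σ₀ := AlgHom.normal_bijective ↥B ↥E ↥E σ₀
  refine ⟨AlgEquiv.ofBijective σ₀ hbij, fun x => ?_⟩
  rw [lam_apply]
  have h1 := φ.liftNormal_commutes ↥E (toImg E F hFE B j hB x)
  show ((φ (toImg E F hFE B j hB x) : ↥E) : Ω) = ((σ₀ (inclusion hFE x) : ↥E) : Ω)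
  have h2 : algebraMap ↥(img E F hFE B j hB) ↥E (toImg E F hFE B j hB x) = inclusion hFE x := rfl
  rw [h2] at h1
  rw [h1]
  rfl

include hB in
/-- **THE COMPLETE FAMILY** -/
theorem exists_family :
    ∃ (Q : Type) (_ : Fintype Q) (Λ : Q → (↥F →+* Ω)),
      Function.Injective Λ ∧
      Fintype.card Q = Module.finrank ↥k⟮j⟯ ↥F ∧
      (∀ q (c : k), Λ q (algebraMap k ↥F c) = algebraMap k Ω c) ∧
      (∀ q, Λ q j = (j : Ω)) ∧
      ∀ q, ∃ σ : ↥E ≃ₐ[↥B] ↥E, ∀ x : ↥F, Λ q x = ((σ (inclusion hFE x) : ↥E) : Ω) :=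
  ⟨↥(img E F hFE B j hB) →ₐ[↥B] ↥E, inferInstance, lam E F hFE B j hB,
    lam_injective E F hFE B j hB, card_eq E F hFE B j hB, lam_algebraMap E F hFE B j hB,
    lam_gen E F hFE B j hB, exists_algEquiv E F hFE B j hB⟩

end Fermat.Agent.S48.B.Red.Cusp1.FromFull.Count

end
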