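/-
PROJECT D (S48), part B, block B3, brick C (cusps of `X₁(M)`), producer of the seam `CuspFam1`,
file `Functor` (helper16): FUNCTORIALITY OF helper12's PACKAGE `Igusa/Full` IN THE COEFFICIENT FIELD.

`φ : K →+* K'` a homomorphism of fields, `ζ : K`.  The coefficientwise map
`coeffMap φ : K((q)) →+* K'((q))` sends the generators `j(q^M)`, `f_v` of `FFull M ζ` to the
generators of `FFull M (φ ζ)` (helper12's `Family.coeffMap_yF`), hence

* `coeffMap_mem_FFull` : it maps `FFull M ζ` into `FFull M (φ ζ)`;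
* `mapFF φ ζ : FFull M ζ →+* FFull M (φ ζ)` : the induced ring homomorphism;
* `mapFF_act` : it intertwines the two actions of `SL(2, ZMod M)` (both are determined by their
  effect on the constants and on the generators).
-/
import Mathlib
import Fermat.Agent.S48.B.Igusa.Full.Galois

set_option autoImplicit false

noncomputable section

namespace Fermat.Agent.S48.B.Red.Cusp1.FromFull.Functor

open ModularCurve IntermediateField
open Fermat.Agent.S48.B.Igusa.Full
open Fermat.Agent.S48.B.Igusa.Full.Defs Fermat.Agent.S48.B.Igusa.Full.Family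
open Fermat.Agent.S48.B.Igusa.Full.Galois
open scoped MatrixGroups

/-! ### Ring homomorphisms out of a generated field -/

/-- two ring homomorphisms out of `K(S)` which agree on `K` and on `S` are equal -/
theorem ringHom_ext_adjoin {K E Ω : Type*} [Field K] [Field E] [Algebra K E] [DivisionRing Ω]
    {S : Set E} (φ ψ : ↥(adjoin K S) →+* Ω)
    (hc : ∀ c : K, φ (algebraMap K ↥(adjoin K S) c) = ψ (algebraMap K ↥(adjoin K S) c))
    (hS : ∀ s (hs : s ∈ S), φ ⟨s, subset_adjoin K S hs⟩ = ψ ⟨s, subset_adjoin K S hs⟩) :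
    φ = ψ := by
  ext ⟨x, hx⟩
  induction hx using IntermediateField.adjoin_induction with
  | mem x hx => exact hS x hx
  | algebraMap c => exact hc c
  | add x y hx hy ihx ihy =>
    have e : (⟨x + y, add_mem hx hy⟩ : ↥(adjoin K S)) = ⟨x, hx⟩ + ⟨y, hy⟩ := rfl
    rw [e, map_add, map_add, ihx, ihy]
  | inv x hx ih =>
    have e : (⟨x⁻¹, inv_mem hx⟩ : ↥(adjoin K S)) = (⟨x, hx⟩ : ↥(adjoin K S))⁻¹ := rfl
    rw [e, map_inv₀, map_inv₀, ih]
  | mul x y hx hy ihx ihy =>
    have e : (⟨x * y, mul_mem hx hy⟩ : ↥(adjoin K S)) = ⟨x, hx⟩ * ⟨y, hy⟩ := rfl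
    rw [e, map_mul, map_mul, ihx, ihy]

/-! ### The coefficient map on `FFull` -/

variable {M : ℕ} [NeZero M] {K K' : Type*} [Field K] [Field K'] (φ : K →+* K') (ζ : K)

theorem coeffMap_algebraMap' (c : K) :
    coeffMap φ (algebraMap K (LaurentSeries K) c) = algebraMap K' (LaurentSeries K') (φ c) := by
  rw [algebraMap_laurentSeries_eq_single, algebraMap_laurentSeries_eq_single, coeffMap_single]

/-- **`coeffMap φ` maps `FFull M ζ` into `FFull M (φ ζ)`** -/
theorem coeffMap_mem_FFull_aux {x : LaurentSeries K}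
    (hx : x ∈ adjoin K (Set.range (yF M ζ))) : coeffMap φ x ∈ FFull M (φ ζ) := by
  induction hx using IntermediateField.adjoin_induction with
  | mem x hx =>
    obtain ⟨i, rfl⟩ := hx
    rw [coeffMap_yF]
    exact (GalPerm.gen K' (yF M (φ ζ)) i).2
  | algebraMap c =>
    rw [coeffMap_algebraMap']
    exact (FFull M (φ ζ)).algebraMap_mem _
  | add x y _ _ ihx ihy =>
    rw [map_add]
    exact add_mem ihx ihy
  | inv x _ ih =>
    rw [map_inv₀]
    exact inv_mem ih
  | mul x y _ _ ihx ihy =>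
    rw [map_mul]
    exact mul_mem ihx ihy

theorem coeffMap_mem_FFull {x : LaurentSeries K} (hx : x ∈ FFull M ζ) :
    coeffMap φ x ∈ FFull M (φ ζ) :=
  coeffMap_mem_FFull_aux φ ζ hx

/-- the ring homomorphism `FFull M ζ →+* FFull M (φ ζ)` induced by `coeffMap φ` -/
def mapFF : ↥(FFull M ζ) →+* ↥(FFull M (φ ζ)) :=
  ((coeffMap φ).comp (FFull M ζ).val.toRingHom).codRestrict (FFull M (φ ζ))
    fun x => coeffMap_mem_FFull φ ζ x.2

theorem coe_mapFF (x : ↥(FFull M ζ)) :
    ((mapFF φ ζ x : ↥(FFull M (φ ζ))) : LaurentSeries K') = coeffMap φ (x : LaurentSeries K) :=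
  rfl

theorem mapFF_algebraMap (c : K) :
    mapFF φ ζ (algebraMap K ↥(FFull M ζ) c) = algebraMap K' ↥(FFull M (φ ζ)) (φ c) :=
  Subtype.ext (coeffMap_algebraMap' φ c)

theorem mapFF_gen (i : Idx M) :
    mapFF φ ζ (GalPerm.gen K (yF M ζ) i) = GalPerm.gen K' (yF M (φ ζ)) i :=
  Subtype.ext (coeffMap_yF M φ ζ i)

/-! ### Intertwining of the actions -/

variable {φ ζ}

theorem act_algebraMap {ι : K →+* ℂ} (h : Input M ι ζ) (g : SL(2, ZMod M)) (c : K) :
    act h g (algebraMap K ↥(FFull M ζ) c) = algebraMap K ↥(FFull M ζ) c :=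
  (GalPerm.sig (hasPerm h) g).commutes c

theorem act_gen {ι : K →+* ℂ} (h : Input M ι ζ) (g : SL(2, ZMod M)) (i : Idx M) :
    act h g (GalPerm.gen K (yF M ζ) i) = GalPerm.gen K (yF M ζ) (rho M g i) :=
  GalPerm.act_gen (hasPerm h) (fun _ => rfl) g i

/-- **the coefficient map intertwines the actions of `SL(2, ZMod M)`** -/
theorem mapFF_act {ι : K →+* ℂ} {ι' : K' →+* ℂ} (h : Input M ι ζ) (h' : Input M ι' (φ ζ))
    (g : SL(2, ZMod M)) (x : ↥(FFull M ζ)) :
    mapFF φ ζ (act h g x) = act h' g (mapFF φ ζ x) := by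
  have key : (mapFF φ ζ).comp ((act h g : ↥(FFull M ζ) ≃ₐ[↥(K0 M ζ)] ↥(FFull M ζ)) :
        ↥(FFull M ζ) →+* ↥(FFull M ζ)) =
      ((act h' g : ↥(FFull M (φ ζ)) ≃ₐ[↥(K0 M (φ ζ))] ↥(FFull M (φ ζ))) :
        ↥(FFull M (φ ζ)) →+* ↥(FFull M (φ ζ))).comp (mapFF φ ζ) := by
    refine ringHom_ext_adjoin (K := K) (S := Set.range (yF M ζ)) _ _ (fun c => ?_) ?_
    · show mapFF φ ζ (act h g (algebraMap K ↥(FFull M ζ) c)) =
        act h' g (mapFF φ ζ (algebraMap K ↥(FFull M ζ) c))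
      rw [act_algebraMap, mapFF_algebraMap, act_algebraMap]
    · rintro s ⟨i, rfl⟩
      show mapFF φ ζ (act h g (GalPerm.gen K (yF M ζ) i)) =
        act h' g (mapFF φ ζ (GalPerm.gen K (yF M ζ) i))
      rw [act_gen, mapFF_gen, mapFF_gen, act_gen]
  exact DFunLike.congr_fun key x

theorem coeffMap_act {ι : K →+* ℂ} {ι' : K' →+* ℂ} (h : Input M ι ζ) (h' : Input M ι' (φ ζ))
    (g : SL(2, ZMod M)) (x : ↥(FFull M ζ)) :
    coeffMap φ ((act h g x : ↥(FFull M ζ)) : LaurentSeries K) =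
      ((act h' g (mapFF φ ζ x) : ↥(FFull M (φ ζ))) : LaurentSeries K') := by
  rw [← coe_mapFF, mapFF_act h h']

end Fermat.Agent.S48.B.Red.Cusp1.FromFull.Functor

end
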