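/-
PROJECT D (S48), part B, block B3, brick C (cusps of `X₁(M)`), producer of the seam `CuspFam1`,
file `Integral` (helper16): FROM helper25's GAUSS RING `InOw v F` TO helper6's LOCAL RING `VA`.

`(L, v)` a valued field, `K'` a field with a valuation subring `A`, `ι : L →+* K'` with
`v c ≤ 1 → ι c ∈ A`.  If `x = a / b` with `a, b` coefficientwise `v`-integral and `b` primitive
(`GaussDVR.InOw v F x`), then `coeffMap ι x = a' / b'` with `a', b' ∈ A((q))` and `b'` of nonzero
reduction, i.e. `coeffMap ι x ∈ RedFamily.VA (residue A)`.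
-/
import Mathlib
import Fermat.Agent.S48.B.Igusa.GaussDVR
import Fermat.Agent.S48.B.Red.Cusp1.RedFamily

set_option autoImplicit false

noncomputable section

namespace Fermat.Agent.S48.B.Red.Cusp1.FromFull.Integral

open ModularCurve
open Fermat.Agent.S48.B.Igusa.GaussDVR
open Fermat.Agent.S48.B.Red.Cusp1.RedFamily
open Fermat.Agent.S37.Cusps.FracLocal

variable {K' : Type*} [Field K'] (A : ValuationSubring K')

/-- a Laurent series over `K'` with all coefficients in `A` comes from `A((q))` -/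
theorem exists_incA_eq (f : LaurentSeries K') (hf : ∀ n, f.coeff n ∈ A) :
    ∃ f' : LaurentSeries ↥A, incA A f' = f ∧ ∀ n, ((f'.coeff n : ↥A) : K') = f.coeff n := by
  have hsupp : Function.support (fun n => (⟨f.coeff n, hf n⟩ : ↥A)) ⊆ f.support := by
    intro n hn
    rw [Function.mem_support] at hn
    rw [HahnSeries.mem_support]
    intro h0
    exact hn (Subtype.ext h0)
  refine ⟨⟨fun n => ⟨f.coeff n, hf n⟩, f.isPWO_support.mono hsupp⟩, ?_, fun n => rfl⟩
  ext n
  show (coeffMap A.subtype _).coeff n = _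
  rw [coeffMap_coeff]
  rfl

variable {L : Type*} [Field L] {Γ₀ : Type*} [LinearOrderedCommGroupWithZero Γ₀]
  {v : Valuation L Γ₀} {A} {ι : L →+* K'}

/-- an element of `v`-valuation `1` goes to a unit of `A` -/
theorem isUnit_of_v_eq_one (hv : ∀ c : L, v c ≤ 1 → ι c ∈ A) {c : L} (hc : v c = 1) :
    IsUnit (⟨ι c, hv c hc.le⟩ : ↥A) := by
  have hc0 : c ≠ 0 := by
    rintro rfl
    rw [map_zero] at hc
    exact zero_ne_one hc
  have hinv : v c⁻¹ ≤ 1 := by
    rw [map_inv₀, hc, inv_one]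
  refine IsUnit.of_mul_eq_one (⟨ι c⁻¹, hv _ hinv⟩ : ↥A) ?_
  apply Subtype.ext
  show ι c * ι c⁻¹ = 1
  rw [← map_mul, mul_inv_cancel₀ hc0, map_one]

/-- **`InOw` over `(L, v)` goes to `VA` over `(K', A)`** -/
theorem mem_VA_of_inOw (hv : ∀ c : L, v c ≤ 1 → ι c ∈ A)
    {F : IntermediateField L (LaurentSeries L)} {x : LaurentSeries L} (hx : InOw v F x) :
    coeffMap ι x ∈ VA (IsLocalRing.residue ↥A) := by
  obtain ⟨a, b, -, ha, -, ⟨hb, n, hn⟩, hab⟩ := hx
  obtain ⟨a', ha', -⟩ := exists_incA_eq A (coeffMap ι a) fun m => by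
    rw [coeffMap_coeff]
    exact hv _ (ha m)
  obtain ⟨b', hb', hb'c⟩ := exists_incA_eq A (coeffMap ι b) fun m => by
    rw [coeffMap_coeff]
    exact hv _ (hb m)
  refine ⟨a', b', ?_, ?_⟩
  · intro h0
    have h1 : (rhoA (IsLocalRing.residue ↥A) b').coeff n = 0 := by
      rw [h0, HahnSeries.coeff_zero]
    have h2 : (rhoA (IsLocalRing.residue ↥A) b').coeff n =
        IsLocalRing.residue ↥A (b'.coeff n) := rfl
    rw [h2] at h1
    have h3 : b'.coeff n = (⟨ι (b.coeff n), hv _ hn.le⟩ : ↥A) := by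
      apply Subtype.ext
      rw [hb'c n, coeffMap_coeff]
    rw [h3] at h1
    exact (IsLocalRing.residue_ne_zero_iff_isUnit _).2 (isUnit_of_v_eq_one hv hn) h1
  · rw [ha', hb', ← map_mul, hab]

end Fermat.Agent.S48.B.Red.Cusp1.FromFull.Integral

end
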