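/-
PROJECT D (S48), part B, block B3, brick C (cusps of `X₁(M)`), producer of the seam `CuspFam1`,
file `All` (helper16): THE INSTANTIATION AT THE INERTIA FIELD.

`L = SmallDVR.K0 A` (the inertia field of `A`), `W A = A ∩ L`, `ζ = u ∈ L` the `M`-th root of unity
of helper3's `U1/Inertia.exists_input` (`ℓ ∤ M`).  Under `ActStable M` (= the by-product `D' = ⊤` of
helper23's `Igusa/Unique1`: every `act h g` preserves the Gauss ring of `FFull M u` over `(L, W A)`)
the seam `CuspFam1 M A` holds at every `A` over every `ℓ ∤ M`, `2` and `3` included.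
-/
import Mathlib
import Fermat.Agent.S48.B.Igusa.U1.Inertia
import Fermat.Agent.S48.B.Red.Cusp1.FromFull

set_option autoImplicit false

noncomputable section

namespace Fermat.Agent.S48.B.Red.Cusp1.FromFull.All

open ModularCurve
open Fermat.Agent.S18.C.SmallDVR (K0 W)
open Fermat.Agent.S48.B.Igusa.Full
open Fermat.Agent.S48.B.Igusa.Full.Defs
open Fermat.Agent.S48.B.Igusa.GaussDVR
open Fermat.Agent.S48.B.Red.Cusp1.Seams
open scoped MatrixGroups

local notation "Kb" => AlgebraicClosure ℚ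

/-- **the stability of the Gauss ring of `FF_M` under `Gal(FF_M / K(j(q^M)))`** over the inertia
fields (helper25's `D' = ⊤`; the shape of helper23's `U1.Main.inOw_act`) -/
def ActStable (M : ℕ) [NeZero M] : Prop :=
  ∀ (ℓ : ℕ) [Fact ℓ.Prime], ¬ ℓ ∣ M → ∀ A : ValuationSubring Kb, A.LiesOverPrime ℓ →
    ∀ (ι : ↥(K0 A) →+* ℂ) (u : (↥(K0 A))ˣ), u ^ M = 1 →
      ∀ (h : Galois.Input M ι ((u : (↥(K0 A))ˣ) : ↥(K0 A))) (g : SL(2, ZMod M))
        (x : ↥(FFull M ((u : (↥(K0 A))ˣ) : ↥(K0 A)))),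
        InOw (W A).valuation (FFull M ((u : (↥(K0 A))ˣ) : ↥(K0 A)))
            (x : LaurentSeries ↥(K0 A)) →
          InOw (W A).valuation (FFull M ((u : (↥(K0 A))ˣ) : ↥(K0 A)))
            ((Galois.act h g x : ↥(FFull M ((u : (↥(K0 A))ˣ) : ↥(K0 A)))) :
              LaurentSeries ↥(K0 A))

/-- **`CuspFam1 M A` at every `A` over every `ℓ ∤ M`** -/
theorem cuspFam1_all (M : ℕ) [NeZero M] (hS : ActStable M) :
    ∀ (ℓ : ℕ) [Fact ℓ.Prime], ¬ ℓ ∣ M → ∀ A : ValuationSubring Kb, A.LiesOverPrime ℓ →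
      CuspFam1 M A := by
  intro ℓ _ hℓM A hA
  obtain ⟨ι, u, hu, h⟩ := Fermat.Agent.S48.B.Igusa.U1.Inertia.exists_input M hA hℓM
  exact cuspFam1_of_input_subfield (K0 A) ((u : (↥(K0 A))ˣ) : ↥(K0 A)) A h
    (hS ℓ hℓM A hA ι u hu h)

end Fermat.Agent.S48.B.Red.Cusp1.FromFull.All

end
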